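/-
GATE-B / S43, leaf GB-B3-BOUNDARY, part C (helper74): **the `𝔪`-primary part of `Hom(Γ_H, O)` is
parabolic**, from the matrix lemma (★★) (`StarStar`, part B) by the abstract reduction of
`Boundary/Abstract.lean`.

`θ : (ZMod N)ˣ →* Δ`, `Δ` a finite commutative group of exponent dividing `p ^ a`; `O` with
`ϖ ∣ p` and `⋂ ϖ ^ j O = 0`; `𝔪` a prime of the symbol algebra `Sy.𝕋 O` with
`τ = T_ℓ - (ℓ + 1) ∉ 𝔪` (`StepInst.tauOf`).  Then every `φ` with `IsLoc (actH Sy O θ) 𝔪 φ` is a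
parabolic homomorphism (`isLoc_isParabolicHom`, `isLoc_mem_parabolicHoms`).
-/
import Mathlib
import Fermat.Agent.GB.B3.Boundary.Abstract
import Fermat.Agent.GE8.P3B.GB.B3.StepInst
import Fermat.Agent.GM.B.Par
import Fermat.Agent.GE8.P3B.StepGen
import Fermat.Agent.GE8.P3B.Ok3W

/- TWIN (helper6 B4 generator; conventions of helper24 / helper86) of `Fermat.Agent.GB.B3.Boundary.Concrete` with `p ≠ 3` relaxed to `Ok3A Sy 𝔪 p` / `Ok3W p W` (RISK-5 fix (B), step B4); everything below lives in the wrapper namespace `Fermat.Agent.GE8.P3B`. -/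
set_option linter.dupNamespace false
open Fermat Fermat.Agent Fermat.Agent.GB Fermat.Agent.GB.B3 Fermat.Agent.GB.B3.Boundary Fermat.Agent.GB.B3.EisGamma0 Fermat.Agent.GB.B3.HeckeActH Fermat.Agent.GB.B3.RealLevel Fermat.Agent.GM Fermat.Agent.GM.B

namespace Fermat.Agent.GE8.P3B

set_option autoImplicit false
set_option linter.unusedSectionVars false
set_option linter.style.haveILetI false

open scoped MatrixGroups
open CongruenceSubgroup ModularCurve.Period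

namespace GB.B3.Boundary

open GM.B GB.B3 GB.B3.EisGamma0
  GB.B3.HeckeActH GB.B3.StepInst GB.B3.RealLevel

variable {N : ℕ} [NeZero N] {Δ : Type} [CommGroup Δ] (θ : (ZMod N)ˣ →* Δ)

/-- the parabolic elements of `Γ_H` (in the spelling of `IsParabolicHom`) -/
def IsPar (γ : GamH.GammaH θ) : Prop :=
  ((γ : SL(2, ℤ)) : Matrix (Fin 2) (Fin 2) ℤ).trace ^ 2 = 4

/-- **(★★)**, the matrix lemma (part B): on homomorphisms whose values on parabolic elements are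
invariant under conjugation by `Γ₀(N)`, `T_ℓ` multiplies the values on parabolic elements by
`ℓ + 1` -/
def StarStar {ℓ : ℕ} [Fact ℓ.Prime] (hℓN : ¬ ℓ ∣ N) : Prop :=
  ∀ (A : Type) [AddCommGroup A] (ψ : Additive (GamH.GammaH θ) →+ A),
    (∀ (d : Gamma0 N) (β : GamH.GammaH θ), IsPar θ β →
      ψ (Additive.ofMul (conjK (chi θ) d β)) = ψ (Additive.ofMul β)) →
    ∀ γ : GamH.GammaH θ, IsPar θ γ →
      GamH.TH θ A hℓN ψ (Additive.ofMul γ) = (ℓ + 1) • ψ (Additive.ofMul γ)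

variable {θ}

theorem coe_conjK (d : Gamma0 N) (β : GamH.GammaH θ) :
    ((conjK (chi θ) d β : GamH.GammaH θ) : SL(2, ℤ)) =
      (d : SL(2, ℤ)) * (β : SL(2, ℤ)) * ((d : SL(2, ℤ)))⁻¹ := rfl

/-- conjugation by `Γ₀(N)` preserves parabolic elements -/
theorem isPar_conjK (d : Gamma0 N) {β : GamH.GammaH θ} (hβ : IsPar θ β) :
    IsPar θ (conjK (chi θ) d β) := by
  unfold IsPar at hβ ⊢
  rw [coe_conjK, Matrix.SpecialLinearGroup.coe_mul, Matrix.SpecialLinearGroup.coe_mul,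
    Matrix.trace_mul_cycle, ← Matrix.SpecialLinearGroup.coe_mul, inv_mul_cancel,
    Matrix.SpecialLinearGroup.coe_one, one_mul]
  exact hβ

variable (θ)

/-- evaluation at an element of `Γ_H` -/
noncomputable def evAt (O : Type) [CommRing O] (γ : GamH.GammaH θ) :
    (Additive (GamH.GammaH θ) →+ O) →ₗ[O] O where
  toFun ψ := ψ (Additive.ofMul γ)
  map_add' _ _ := rfl
  map_smul' _ _ := rfl

@[simp] theorem evAt_apply (O : Type) [CommRing O] (γ : GamH.GammaH θ)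
    (ψ : Additive (GamH.GammaH θ) →+ O) : evAt θ O γ ψ = ψ (Additive.ofMul γ) := rfl

/-- the family of evaluations at the parabolic elements -/
noncomputable def evPar (O : Type) [CommRing O] (γ : {γ : GamH.GammaH θ // IsPar θ γ}) :
    (Additive (GamH.GammaH θ) →+ O) →ₗ[O] O := evAt θ O γ.1

section Main

variable (Sy : Symbols N) {O : Type} [CommRing O] (ϖ : O)

theorem actH_tauOf (s0 : Sy.ι₁) (ψ : Additive (GamH.GammaH θ) →+ O) :
    haveI := Sy.factℓ s0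
    actH Sy O θ (tauOf Sy O s0) ψ =
      GamH.TH θ O (Sy.hℓN s0) ψ - (((Sy.ℓ s0 + 1 : ℕ) : O)) • ψ := by
  haveI := Sy.factℓ s0
  unfold tauOf
  rw [map_sub, LinearMap.sub_apply, actH_X_inl, actH_C]

variable [Finite Δ]

/-- a representative in `Γ₀(N)` of an element of the image of `chi θ` -/
noncomputable def repOf (δ : (chi θ).range) : Gamma0 N := Classical.choose δ.2

theorem chi_repOf (δ : (chi θ).range) : chi θ (repOf θ δ) = δ := Classical.choose_spec δ.2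

theorem diaLin_eq_repOf (d : Gamma0 N) (ψ : Additive (GamH.GammaH θ) →+ O) :
    diaLin O θ d ψ = diaLin O θ (repOf θ ⟨chi θ d, d, rfl⟩) ψ := by
  rw [diaLin_apply, diaLin_apply]
  exact GamH.diaH_congr θ _ _ (chi_repOf θ ⟨chi θ d, d, rfl⟩).symm ψ

/-- **the hypotheses of the abstract reduction hold**, given (★★) -/
theorem hyp_of_starStar (s0 : Sy.ι₁)
    (hSS : haveI := Sy.factℓ s0; StarStar θ (Sy.hℓN s0))
    (p a : ℕ) (hp : p.Prime) (hexp : ∀ δ : Δ, δ ^ p ^ a = 1) (hpϖ : ϖ ∣ (p : O)) :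
    haveI : Fintype (chi θ).range := Fintype.ofFinite _
    Hyp ϖ (evPar θ O) (actH Sy O θ (tauOf Sy O s0))
      (fun δ : (chi θ).range => diaLin O θ (repOf θ δ)) (fun _ => p ^ a) := by
  haveI := Sy.factℓ s0
  haveI : Fintype (chi θ).range := Fintype.ofFinite _
  have hDV : ∀ (j : ℕ) (d : Gamma0 N) (ψ : Additive (GamH.GammaH θ) →+ O),
      ψ ∈ V ϖ (evPar θ O) j → diaLin O θ d ψ ∈ V ϖ (evPar θ O) j := by
    intro j d ψ hψ γ
    have h1 : evPar θ O γ (diaLin O θ d ψ) =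
        evPar θ O ⟨conjK (chi θ) d γ.1, isPar_conjK d γ.2⟩ ψ := by
      show (diaLin O θ d ψ) (Additive.ofMul γ.1) = ψ (Additive.ofMul (conjK (chi θ) d γ.1))
      rw [diaLin_apply, GamH.diaH_apply]
    rw [h1]
    exact hψ _
  refine ⟨fun δ δ' => diaLin_comm O θ _ _, fun δ => ?_, fun j δ ψ hψ => hDV j _ ψ hψ,
    fun j δ ψ hψ => ?_, fun j ψ hinv => ?_⟩
  · -- `τ` commutes with the diamonds
    refine LinearMap.ext fun ψ => ?_
    rw [Module.End.mul_apply, Module.End.mul_apply, diaLin_apply, diaLin_apply]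
    exact (diaH_act Sy O θ (repOf θ δ) (tauOf Sy O s0) ψ).symm
  · -- `(D - 1) ^ (p ^ a)` raises the filtration
    refine sub_one_pow_mem ϖ (evPar θ O) p hp hpϖ (diaLin O θ (repOf θ δ)) a ?_ j
      (fun ψ hψ => hDV j _ ψ hψ) hψ
    refine diaLin_pow O θ (repOf θ δ) (p ^ a) ?_
    rw [map_pow]
    exact hexp _
  · -- (★★) modulo `ϖ ^ j`
    intro γ
    let f : O →+ O ⧸ Ideal.span {ϖ ^ j} := (Ideal.Quotient.mk (Ideal.span {ϖ ^ j})).toAddMonoidHom
    have hf : ∀ a : O, f a = 0 ↔ ϖ ^ j ∣ a := fun a => by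
      show Ideal.Quotient.mk _ a = 0 ↔ _
      rw [Ideal.Quotient.eq_zero_iff_mem, Ideal.mem_span_singleton]
    -- the boundary values of `f ∘ ψ` are invariant
    have hinv' : ∀ (d : Gamma0 N) (β : GamH.GammaH θ), IsPar θ β →
        (f.comp ψ) (Additive.ofMul (conjK (chi θ) d β)) = (f.comp ψ) (Additive.ofMul β) := by
      intro d β hβ
      rw [AddMonoidHom.comp_apply, AddMonoidHom.comp_apply, ← sub_eq_zero, ← map_sub, hf]
      have h1 := hinv ⟨chi θ d, d, rfl⟩ ⟨β, hβ⟩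
      rw [LinearMap.sub_apply, Module.End.one_apply, ← diaLin_eq_repOf, map_sub] at h1
      have h2 : evPar θ O ⟨β, hβ⟩ (diaLin O θ d ψ) = ψ (Additive.ofMul (conjK (chi θ) d β)) := by
        show (diaLin O θ d ψ) (Additive.ofMul β) = _
        rw [diaLin_apply, GamH.diaH_apply]
      rw [h2] at h1
      exact h1
    have h3 := hSS (O ⧸ Ideal.span {ϖ ^ j}) (f.comp ψ) hinv' γ.1 γ.2
    have h4 : GamH.TH θ (O ⧸ Ideal.span {ϖ ^ j}) (Sy.hℓN s0) (f.comp ψ)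
        = f.comp (GamH.TH θ O (Sy.hℓN s0) ψ) :=
      CosetSys.op_comp_hom (GamH.heckeSysH θ (Sy.hℓN s0)) f ψ
    rw [h4, AddMonoidHom.comp_apply, AddMonoidHom.comp_apply, ← map_nsmul, ← sub_eq_zero,
      ← map_sub, hf] at h3
    have h5 : evPar θ O γ (actH Sy O θ (tauOf Sy O s0) ψ)
        = GamH.TH θ O (Sy.hℓN s0) ψ (Additive.ofMul γ.1)
          - (Sy.ℓ s0 + 1) • ψ (Additive.ofMul γ.1) := by
      show (actH Sy O θ (tauOf Sy O s0) ψ) (Additive.ofMul γ.1) = _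
      rw [actH_tauOf, AddMonoidHom.sub_apply, AddMonoidHom.smul_apply, Nat.cast_smul_eq_nsmul]
    rw [h5]
    exact h3

/-- **(BND): the `𝔪`-primary part of `Hom(Γ_H, O)` is parabolic**, `τ = T_ℓ - (ℓ + 1) ∉ 𝔪` -/
theorem isLoc_isParabolicHom (s0 : Sy.ι₁)
    (hSS : haveI := Sy.factℓ s0; StarStar θ (Sy.hℓN s0))
    (p a : ℕ) (hp : p.Prime) (hexp : ∀ δ : Δ, δ ^ p ^ a = 1) (hpϖ : ϖ ∣ (p : O))
    (hsep : ∀ c : O, (∀ j : ℕ, ϖ ^ j ∣ c) → c = 0)
    (𝔪 : Ideal (Sy.𝕋 O)) [𝔪.IsPrime] (hτ : tauOf Sy O s0 ∉ 𝔪)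
    {φ : Additive (GamH.GammaH θ) →+ O} (hφ : IsLoc (actH Sy O θ) 𝔪 φ) :
    IsParabolicHom (GamH.GammaH θ) φ := by
  haveI : Fintype (chi θ).range := Fintype.ofFinite _
  intro γ hγ
  exact (hyp_of_starStar θ Sy ϖ s0 hSS p a hp hexp hpϖ).isLoc_ev_eq_zero (actH Sy O θ) 𝔪
    (tauOf Sy O s0) hτ rfl hsep hφ ⟨γ, hγ⟩

theorem isLoc_mem_parabolicHoms (s0 : Sy.ι₁)
    (hSS : haveI := Sy.factℓ s0; StarStar θ (Sy.hℓN s0))
    (p a : ℕ) (hp : p.Prime) (hexp : ∀ δ : Δ, δ ^ p ^ a = 1) (hpϖ : ϖ ∣ (p : O))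
    (hsep : ∀ c : O, (∀ j : ℕ, ϖ ^ j ∣ c) → c = 0)
    (𝔪 : Ideal (Sy.𝕋 O)) [𝔪.IsPrime] (hτ : tauOf Sy O s0 ∉ 𝔪)
    {φ : Additive (GamH.GammaH θ) →+ O} (hφ : IsLoc (actH Sy O θ) 𝔪 φ) :
    φ ∈ parabolicHoms O (GamH.GammaH θ) O :=
  isLoc_isParabolicHom θ Sy ϖ s0 hSS p a hp hexp hpϖ hsep 𝔪 hτ hφ

/-- `⋂ ϖ ^ j O = 0` in a noetherian local domain with `ϖ` a non-unit -/
theorem hsep_of_isLocalRing [IsLocalRing O] [IsNoetherianRing O] [IsDomain O]
    (hϖ : ϖ ∈ IsLocalRing.maximalIdeal O) (c : O) (hc : ∀ j : ℕ, ϖ ^ j ∣ c) : c = 0 := by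
  have h1 : (⨅ i : ℕ, (Ideal.span {ϖ} : Ideal O) ^ i) = ⊥ :=
    Ideal.iInf_pow_eq_bot_of_isLocalRing _ (fun h => by
      rw [Ideal.span_singleton_eq_top] at h
      exact hϖ h)
  have h2 : c ∈ (⨅ i : ℕ, (Ideal.span {ϖ} : Ideal O) ^ i) := by
    rw [Ideal.mem_iInf]
    intro j
    rw [Ideal.span_singleton_pow, Ideal.mem_span_singleton]
    exact hc j
  rw [h1] at h2
  exact h2

end Main

end GB.B3.Boundary

end Fermat.Agent.GE8.P3B
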