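/-
GATE-B / S43, leaf GB-B3-BOUNDARY, part C2 (helper74): (BND) at helper95's named objects
(`GB/B3/Plug.lean`): the big level `P_Q = Plug.bigLevel` is realised inside the PARABOLIC
homomorphisms of `GammaH (Theta (Δs p e) H.psi j)`, so that helper44's twist action
`tw : heckeAlgebra N'' 2 S →+* End_O ↥(parabolicHoms O (GammaH θ) O)` (`TwInst.exists_tw_primeData`)
can be restricted to it.  Hypothesis: the matrix lemma `StarStar` (part B).
-/
import Mathlib
import Fermat.Agent.GE8.P3B.GB.B3.Boundary.Concrete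
import Fermat.Agent.GE8.P3B.GB.B3.Plug
import Fermat.Agent.GE8.P3B.StepGen
import Fermat.Agent.GE8.P3B.Ok3W

/- TWIN (helper6 B4 generator; conventions of helper24 / helper86) of `Fermat.Agent.GB.B3.Boundary.PlugPar` with `p ≠ 3` relaxed to `Ok3A Sy 𝔪 p` / `Ok3W p W` (RISK-5 fix (B), step B4); everything below lives in the wrapper namespace `Fermat.Agent.GE8.P3B`. -/
set_option linter.dupNamespace false
open Fermat Fermat.Agent Fermat.Agent.GB Fermat.Agent.GB.B3 Fermat.Agent.GB.B3.Boundary Fermat.Agent.GB.B3.EisGamma0 Fermat.Agent.GB.B3.HeckeActH Fermat.Agent.GB.B3.RealLevel Fermat.Agent.GB.B3.TWChars Fermat.Agent.GB.B3.TWLevel Fermat.Agent.GM Fermat.Agent.GM.B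

namespace Fermat.Agent.GE8.P3B

set_option autoImplicit false
set_option linter.unusedSectionVars false
set_option linter.style.haveILetI false

open scoped MatrixGroups
open CongruenceSubgroup ModularCurve.Period

namespace GB.B3.Boundary

open GM.B GB.B3 GB.B3.EisGamma0
  GB.B3.HeckeActH GB.B3.StepInst GB.B3.RealLevel
  GB.B3.Tower GB.B3.TWChars GB.B3.FinalTW
  GB.B3.Plug GB.B3.TWLevel

/-- the exponent of `∏_{i<j} ℤ/p^{e i}` divides `p ^ ∑ e i` -/
theorem pow_eq_one_Δs (p : ℕ) (e : ℕ → ℕ) (j : ℕ) (δ : ∀ i : Fin j, Δs p e i) :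
    δ ^ p ^ (∑ i : Fin j, e i) = 1 := by
  funext i
  rw [Pi.pow_apply, Pi.one_apply]
  have hle : e i ≤ ∑ i : Fin j, e i :=
    Finset.single_le_sum (f := fun i : Fin j => e i) (fun _ _ => Nat.zero_le _) (Finset.mem_univ i)
  obtain ⟨c, hc⟩ := Nat.exists_eq_add_of_le hle
  rw [hc, pow_add, pow_mul]
  have h1 : (δ i) ^ p ^ e i = 1 := by
    apply Multiplicative.toAdd.injective
    rw [toAdd_pow, toAdd_one, nsmul_eq_mul]
    have : ((p ^ e i : ℕ) : ZMod (p ^ e i)) = 0 := ZMod.natCast_self _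
    rw [this, zero_mul]
  rw [h1, one_pow]

variable {N p : ℕ} [NeZero N] [hpF : Fact p.Prime] {K : ℕ} {r e N' : ℕ → ℕ}
variable (Sy : Symbols N)
variable {O : Type} [CommRing O] [IsDomain O] [IsPrincipalIdealRing O] [IsLocalRing O]
  [IsAdicComplete (IsLocalRing.maximalIdeal O) O] [Module.IsTorsionFree ℤ O]
variable (𝔪 : Ideal (Sy.𝕋 O)) [𝔪.IsMaximal]
variable (H : PrimeData N p K r e N') {ϖ : O} {s0 : Sy.ι₁} (h : Plug.Hyp Sy 𝔪 p ϖ s0)

include h in
/-- **(BND) at the stages of the tower** -/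
theorem isLoc_mem_parabolicHoms_theta (j : ℕ)
    (hSS : haveI := Sy.factℓ s0; StarStar (Theta (Δs p e) H.psi j) (Sy.hℓN s0))
    {φ : Additive (GamH.GammaH (Theta (Δs p e) H.psi j)) →+ O}
    (hφ : IsLoc (actH Sy O (Theta (Δs p e) H.psi j)) 𝔪 φ) :
    φ ∈ parabolicHoms O (GamH.GammaH (Theta (Δs p e) H.psi j)) O := by
  have hpϖ : ϖ ∣ (p : O) := Ideal.mem_span_singleton.1 h.hpϖ
  have hϖm : ϖ ∈ IsLocalRing.maximalIdeal O := by
    rw [h.hmax]
    exact Ideal.mem_span_singleton_self ϖ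
  exact isLoc_mem_parabolicHoms (Theta (Δs p e) H.psi j) Sy ϖ s0 hSS p (∑ i : Fin j, e i)
    hpF.out (pow_eq_one_Δs p e j) hpϖ (hsep_of_isLocalRing ϖ hϖm) 𝔪 h.hτ hφ

/-- **the big level `P_Q` is realised inside the parabolic homomorphisms** -/
theorem bigReal_mem_parabolicHoms (j : ℕ)
    (hSS : haveI := Sy.factℓ s0; StarStar (Theta (Δs p e) H.psi j) (Sy.hℓN s0))
    (x : (bigLevel Sy 𝔪 H h j).M) :
    (bigReal Sy 𝔪 H h j).ι x ∈ parabolicHoms O (GamH.GammaH (Theta (Δs p e) H.psi j)) O :=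
  isLoc_mem_parabolicHoms_theta Sy 𝔪 H h j hSS (((bigReal Sy 𝔪 H h j).range _).1 ⟨x, rfl⟩)

end GB.B3.Boundary

end Fermat.Agent.GE8.P3B
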