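/-
GATE-B leaf GB-B3-BOUNDARY part B (helper11), plug: the matrix lemma (★★) in the spelling of
`Boundary/Concrete.lean` (`StarStar`), for squarefree level, and the resulting hypothesis-free
forms of (BND).
-/
import Mathlib
import Fermat.Agent.GE8.P3B.GB.B3.Boundary.Concrete
import Fermat.Agent.GE8.P3B.GB.B3.Boundary.PlugPar
import Fermat.Agent.GB.B3.Boundary.MatMain
import Fermat.Agent.GE8.P3B.StepGen
import Fermat.Agent.GE8.P3B.Ok3W

/- TWIN (helper6 B4 generator; conventions of helper24 / helper86) of `Fermat.Agent.GB.B3.Boundary.MatPlug` with `p ≠ 3` relaxed to `Ok3A Sy 𝔪 p` / `Ok3W p W` (RISK-5 fix (B), step B4); everything below lives in the wrapper namespace `Fermat.Agent.GE8.P3B`. -/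
set_option linter.dupNamespace false
open Fermat Fermat.Agent Fermat.Agent.GB Fermat.Agent.GB.B3 Fermat.Agent.GB.B3.Boundary Fermat.Agent.GB.B3.Boundary.Mat Fermat.Agent.GB.B3.EisGamma0 Fermat.Agent.GB.B3.HeckeActH Fermat.Agent.GB.B3.RealLevel Fermat.Agent.GB.B3.TWChars Fermat.Agent.GB.B3.TWLevel Fermat.Agent.GM Fermat.Agent.GM.B

namespace Fermat.Agent.GE8.P3B

set_option autoImplicit false

open scoped MatrixGroups
open CongruenceSubgroup

namespace GB.B3.Boundary.Mat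

open GB.B3 GB.B3.EisGamma0 GB.B3.Boundary

/-- **(★★) holds at squarefree level** -/
theorem starStar_of_squarefree {N : ℕ} [NeZero N] {Δ : Type} [CommGroup Δ]
    (θ : (ZMod N)ˣ →* Δ) (hN : Squarefree N) {ℓ : ℕ} [Fact ℓ.Prime] (hℓN : ¬ ℓ ∣ N) :
    StarStar θ hℓN :=
  fun _ _ _ hψ γ hγ => TH_apply_of_parabolic' hℓN hN hψ γ hγ

section Plug

open ModularCurve.Period
open GM.B GB.B3.HeckeActH GB.B3.StepInst
  GB.B3.RealLevel GB.B3.Tower GB.B3.TWChars
  GB.B3.FinalTW GB.B3.Plug GB.B3.TWLevel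

variable {N p : ℕ} [NeZero N] [hpF : Fact p.Prime] {K : ℕ} {r e N' : ℕ → ℕ}
variable (Sy : Symbols N)
variable {O : Type} [CommRing O] [IsDomain O] [IsPrincipalIdealRing O] [IsLocalRing O]
  [IsAdicComplete (IsLocalRing.maximalIdeal O) O] [Module.IsTorsionFree ℤ O]
variable (𝔪 : Ideal (Sy.𝕋 O)) [𝔪.IsMaximal]
variable (H : PrimeData N p K r e N') {ϖ : O} {s0 : Sy.ι₁} (h : Plug.Hyp Sy 𝔪 p ϖ s0)

include h in
/-- **(BND) at the stages of the tower, squarefree level, no hypothesis (★★)** -/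
theorem isLoc_mem_parabolicHoms_theta_of_squarefree (hN : Squarefree N) (j : ℕ)
    {φ : Additive (GamH.GammaH (Theta (Δs p e) H.psi j)) →+ O}
    (hφ : IsLoc (actH Sy O (Theta (Δs p e) H.psi j)) 𝔪 φ) :
    φ ∈ parabolicHoms O (GamH.GammaH (Theta (Δs p e) H.psi j)) O :=
  haveI := Sy.factℓ s0
  isLoc_mem_parabolicHoms_theta Sy 𝔪 H h j
    (starStar_of_squarefree (Theta (Δs p e) H.psi j) hN (Sy.hℓN s0)) hφ

/-- **the big level `P_Q` is realised inside the parabolic homomorphisms** (squarefree level) -/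
theorem bigReal_mem_parabolicHoms_of_squarefree (hN : Squarefree N) (j : ℕ)
    (x : (bigLevel Sy 𝔪 H h j).M) :
    (bigReal Sy 𝔪 H h j).ι x ∈ parabolicHoms O (GamH.GammaH (Theta (Δs p e) H.psi j)) O :=
  haveI := Sy.factℓ s0
  bigReal_mem_parabolicHoms Sy 𝔪 H h j
    (starStar_of_squarefree (Theta (Δs p e) H.psi j) hN (Sy.hℓN s0)) x

end Plug

end GB.B3.Boundary.Mat

end Fermat.Agent.GE8.P3B
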